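import Fermat.Agent.S29.Cyclo.ModPChar

/-!
# S29 (R-core C4, adapter): the mod `p` cyclotomic character with values in `kˣ`

`chiKU p k : G_ℚ →* kˣ` for a field `k` of characteristic `p` (the shape `χ : G →* kˣ` used by
`S29/PowerTransfer`, `S29/RepOfModule` and `S29/Alg/QuadRel`), with its Frobenius values, its
triviality on inertia outside `p`, and its level: the explicit number field `cycloLevel p = ℚ(ζ_p)`
(for the hypothesis `hLχ : ∀ τ, (∀ x ∈ L, τ x = x) → χ τ = 1`).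
-/

set_option autoImplicit false

namespace Fermat.Agent.S29.Cyclo.ModPCharUnits

open Fermat.Agent.S29.Cyclo.ModPChar

variable (p : ℕ) [Fact p.Prime] (k : Type) [Field k] [CharP k p]

/-- the mod `p` cyclotomic character with values in `kˣ` -/
noncomputable def chiKU : GQ →* kˣ :=
  (Units.map ((ZMod.castHom (dvd_refl p) k : ZMod p →+* k) : ZMod p →* k)).comp
    (ExtCitation.cycloChar p)

theorem chiKU_val (σ : GQ) : ((chiKU p k σ : kˣ) : k) = chiK p k σ := rfl

theorem chiKU_apply (σ : GQ) :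
    ((chiKU p k σ : kˣ) : k)
      = ZMod.castHom (dvd_refl p) k ((ExtCitation.cycloChar p σ : (ZMod p)ˣ) : ZMod p) := rfl

variable {p k}

theorem chiKU_frob {ℓ : ℕ} (hℓ : ℓ.Prime) (hℓk : (ℓ : k) ≠ 0) (A : ValuationSubring Qb)
    (hA : A.LiesOverPrime ℓ) (σ : GQ) (hσ : A.IsFrobeniusAt σ ℓ) :
    ((chiKU p k σ : kˣ) : k) = (ℓ : k) := by
  rw [chiKU_val]
  exact chiK_frob hℓ hℓk A hA σ hσ

theorem chiKU_inertia {ℓ : ℕ} (hℓ : ℓ.Prime) (hℓp : ℓ ≠ p) (A : ValuationSubring Qb)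
    (hA : A.LiesOverPrime ℓ) (σ : GQ) (hσ : σ ∈ A.inertiaSubgroupIn ℚ) :
    chiKU p k σ = 1 := by
  apply Units.ext
  rw [chiKU_val, Units.val_one]
  exact chiK_inertia hℓ hℓp A hA σ hσ

theorem chiKU_finiteLevel : GaloisFactorsThroughFiniteLevel (chiKU p k) := by
  obtain ⟨L, hL, h⟩ := cycloChar_finiteLevel (p := p)
  refine ⟨L, hL, fun σ hσ => ?_⟩
  unfold chiKU
  rw [MonoidHom.comp_apply, h σ hσ, map_one]

/-- `χ σ = 1` as soon as `σ` fixes ONE primitive `p`-th root of unity -/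
theorem cycloChar_eq_one_of_fixes {ζ : Qb} (hζ : IsPrimitiveRoot ζ p) (σ : GQ) (h : σ ζ = ζ) :
    ExtCitation.cycloChar p σ = 1 := by
  have h1 : σ ζ = ζ ^ 1 := by rw [pow_one]; exact h
  have h2 := cycloChar_eq_of_pow hζ σ 1 h1
  apply Units.ext
  rw [h2, Nat.cast_one, Units.val_one]

theorem chiKU_eq_one_of_fixes {ζ : Qb} (hζ : IsPrimitiveRoot ζ p) (σ : GQ) (h : σ ζ = ζ) :
    chiKU p k σ = 1 := by
  unfold chiKU
  rw [MonoidHom.comp_apply, cycloChar_eq_one_of_fixes hζ σ h, map_one]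

/-- the hypothesis `hLχ` of `PowerTransfer.exists_t_of_cycCheb` for every intermediate field
containing a primitive `p`-th root of unity -/
theorem chiKU_eq_one_of_mem {ζ : Qb} (hζ : IsPrimitiveRoot ζ p)
    (L : IntermediateField ℚ Qb) (hL : ζ ∈ L) (τ : GQ) (hτ : ∀ x ∈ L, τ x = x) :
    chiKU p k τ = 1 :=
  chiKU_eq_one_of_fixes hζ τ (hτ ζ hL)

/-- every finite level can be enlarged to a finite level containing `ζ_p` -/
theorem exists_level_sup {ζ : Qb} (hζ : IsPrimitiveRoot ζ p)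
    (L : IntermediateField ℚ Qb) [FiniteDimensional ℚ L] :
    ∃ L' : IntermediateField ℚ Qb, FiniteDimensional ℚ L' ∧ L ≤ L' ∧ ζ ∈ L' := by
  have hp : p.Prime := Fact.out
  have : FiniteDimensional ℚ (IntermediateField.adjoin ℚ {ζ}) :=
    IntermediateField.adjoin.finiteDimensional (hζ.isIntegral hp.pos).tower_top
  refine ⟨L ⊔ IntermediateField.adjoin ℚ {ζ}, IntermediateField.finiteDimensional_sup _ _,
    le_sup_left, ?_⟩
  exact (le_sup_right : IntermediateField.adjoin ℚ {ζ} ≤ L ⊔ IntermediateField.adjoin ℚ {ζ})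
    (IntermediateField.mem_adjoin_simple_self ℚ ζ)

end Fermat.Agent.S29.Cyclo.ModPCharUnits
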