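import Mathlib
import Fermat.Prelude.Def_ExtCitation_KummerBridge
import Fermat.Prelude.Def_GaloisRep_Residual

/-!
# S29 (R2-glue leaf): the mod `p` cyclotomic character of `G_ℚ`

`χ = ExtCitation.cycloChar p : G_ℚ →* (ZMod p)ˣ` (the Prelude's packaging of Mathlib's
`modularCyclotomicCharacter (AlgebraicClosure ℚ)`).  Hypothesis-free facts:

* `valuation_sub_eq_one` : reduction modulo a place `A` of `Q̄` over `ℓ ≠ p` is injective on `μ_p`;
* `cycloChar_frob` : `χ(σ) = ℓ` for every Frobenius `σ` at every `A` over `ℓ ≠ p`;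
* `cycloChar_inertia` : `χ = 1` on the inertia group of every `A` over `ℓ ≠ p`;
* `cycloChar_finiteLevel` : `χ` factors through the finite level `ℚ(ζ_p)`;
* `chiK`, the `k`-valued version for a field `k` of characteristic `p`.
-/

set_option autoImplicit false

open Polynomial

namespace Fermat.Agent.S29.Cyclo.ModPChar

/-- `Q̄` -/
abbrev Qb : Type := AlgebraicClosure ℚ

/-- `G_ℚ` -/
abbrev GQ : Type := Qb ≃ₐ[ℚ] Qb

variable (p : ℕ) [Fact p.Prime]

/-- there is a primitive `p`-th root of unity in `Q̄` -/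
theorem exists_zeta : ∃ ζ : Qb, IsPrimitiveRoot ζ p := by
  have : NeZero (p : ℚ) := ⟨Nat.cast_ne_zero.mpr (Fact.out : p.Prime).ne_zero⟩
  exact HasEnoughRootsOfUnity.exists_primitiveRoot Qb p

variable {p}

/-- the defining property of the cyclotomic character on a primitive `p`-th root of unity -/
theorem cycloChar_spec {ζ : Qb} (hζ : IsPrimitiveRoot ζ p) (σ : GQ) :
    σ ζ = ζ ^ ((ExtCitation.cycloChar p σ : (ZMod p)ˣ) : ZMod p).val := by
  have : NeZero p := ⟨(Fact.out : p.Prime).ne_zero⟩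
  have hp0 : p ≠ 0 := (Fact.out : p.Prime).ne_zero
  have hu : IsUnit ζ := hζ.isUnit hp0
  obtain ⟨t, ht⟩ := hu
  have htm : t ∈ rootsOfUnity p Qb := by
    rw [mem_rootsOfUnity]
    apply Units.ext
    rw [Units.val_pow_eq_pow_val, ht, Units.val_one]
    exact hζ.pow_eq_one
  have h := modularCyclotomicCharacter.spec Qb (ExtCitation.card_rootsOfUnity_eq_self p)
    (σ : Qb ≃+* Qb) htm
  rw [ht] at h
  exact h

/-- if `σ ζ = ζ ^ m` then `χ(σ) = m` -/
theorem cycloChar_eq_of_pow {ζ : Qb} (hζ : IsPrimitiveRoot ζ p) (σ : GQ) (m : ℕ)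
    (h : σ ζ = ζ ^ m) :
    ((ExtCitation.cycloChar p σ : (ZMod p)ˣ) : ZMod p) = (m : ZMod p) := by
  have : NeZero p := ⟨(Fact.out : p.Prime).ne_zero⟩
  have h1 := cycloChar_spec hζ σ
  rw [h] at h1
  have hp0 : p ≠ 0 := (Fact.out : p.Prime).ne_zero
  obtain ⟨t, ht⟩ := hζ.isUnit hp0
  have h2 : t ^ m = t ^ ((ExtCitation.cycloChar p σ : (ZMod p)ˣ) : ZMod p).val := by
    apply Units.ext
    rw [Units.val_pow_eq_pow_val, Units.val_pow_eq_pow_val, ht]
    exact h1
  rw [pow_eq_pow_iff_modEq] at h2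
  have hord : orderOf t = p := by
    have h3 : orderOf (t : Qb) = orderOf t := orderOf_units
    rw [← h3, ht]
    exact hζ.eq_orderOf.symm
  rw [hord] at h2
  have h4 := (ZMod.natCast_eq_natCast_iff _ _ _).mpr h2
  rw [h4, ZMod.natCast_val, ZMod.cast_id]

/-! ### reduction is injective on `μ_p` away from `p` -/

/-- roots of unity have valuation `1` at every valuation subring -/
theorem valuation_of_pow_eq_one (A : ValuationSubring Qb) {x : Qb} {n : ℕ} (hn : n ≠ 0)
    (hx : x ^ n = 1) : A.valuation x = 1 := by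
  have h1 : A.valuation x ^ n = 1 := by rw [← map_pow, hx, map_one]
  exact (pow_eq_one_iff_of_nonneg zero_le hn).mp h1

/-- a prime `p` different from the residue characteristic is a unit at `A` -/
theorem valuation_prime_eq_one (A : ValuationSubring Qb) {ℓ : ℕ} (hA : A.LiesOverPrime ℓ)
    (hℓ : ℓ.Prime) (hℓp : ℓ ≠ p) : A.valuation (p : Qb) = 1 := by
  have hp : p.Prime := Fact.out
  have hcop : Nat.Coprime ℓ p := (Nat.coprime_primes hℓ hp).mpr hℓp
  have hb : IsCoprime (ℓ : ℤ) (p : ℤ) := Nat.isCoprime_iff_coprime.mpr hcop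
  obtain ⟨a, b, hab⟩ := hb
  have hv : ∀ n : ℤ, A.valuation ((n : ℤ) : Qb) ≤ 1 := fun n =>
    (A.valuation_le_one_iff _).mpr (intCast_mem A n)
  have hℓ1 : A.valuation (ℓ : Qb) < 1 := A.mem_nonunits_iff.mp hA
  have hple : A.valuation (p : Qb) ≤ 1 := by
    have := hv (p : ℤ)
    rwa [Int.cast_natCast] at this
  by_contra hne
  have hp1 : A.valuation (p : Qb) < 1 := lt_of_le_of_ne hple hne
  have h1 : (1 : Qb) = (a : Qb) * (ℓ : Qb) + (b : Qb) * (p : Qb) := by
    exact_mod_cast hab.symm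
  have h2 : A.valuation (1 : Qb) < 1 := by
    rw [h1]
    refine lt_of_le_of_lt (A.valuation.map_add _ _) (max_lt ?_ ?_)
    · rw [map_mul]
      calc A.valuation (a : Qb) * A.valuation (ℓ : Qb) ≤ 1 * A.valuation (ℓ : Qb) :=
            mul_le_mul_left (hv a) _
        _ = A.valuation (ℓ : Qb) := one_mul _
        _ < 1 := hℓ1
    · rw [map_mul]
      calc A.valuation (b : Qb) * A.valuation (p : Qb) ≤ 1 * A.valuation (p : Qb) :=
            mul_le_mul_left (hv b) _
        _ = A.valuation (p : Qb) := one_mul _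
        _ < 1 := hp1
  rw [map_one] at h2
  exact lt_irrefl _ h2

/-- `1 - η` is a unit at `A` for a primitive `p`-th root of unity `η`, if `p` is a unit at `A` -/
theorem valuation_one_sub (A : ValuationSubring Qb) (hp1 : A.valuation (p : Qb) = 1) {η : Qb}
    (hη : IsPrimitiveRoot η p) : A.valuation (1 - η) = 1 := by
  have hp : p.Prime := Fact.out
  have hprod : (p : Qb) = ∏ μ ∈ primitiveRoots p Qb, (1 - μ) := by
    have h := Polynomial.cyclotomic_eq_prod_X_sub_primitiveRoots (K := Qb) hη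
    have h2 := congrArg (Polynomial.eval 1) h
    rw [Polynomial.eval_one_cyclotomic_prime, Polynomial.eval_prod] at h2
    simpa using h2
  have hle : ∀ μ ∈ primitiveRoots p Qb, A.valuation (1 - μ) ≤ 1 := by
    intro μ hμ
    have hμ' : IsPrimitiveRoot μ p := (mem_primitiveRoots hp.pos).mp hμ
    have h1 : A.valuation μ = 1 := valuation_of_pow_eq_one A hp.ne_zero hμ'.pow_eq_one
    calc A.valuation (1 - μ) ≤ max (A.valuation 1) (A.valuation μ) := A.valuation.map_sub _ _
      _ = 1 := by rw [map_one, h1, max_self]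
  have hmem : η ∈ primitiveRoots p Qb := (mem_primitiveRoots hp.pos).mpr hη
  by_contra hne
  have hlt : A.valuation (1 - η) < 1 := lt_of_le_of_ne (hle η hmem) hne
  have h3 : A.valuation (p : Qb) < 1 := by
    rw [hprod, map_prod, ← Finset.mul_prod_erase _ _ hmem]
    calc A.valuation (1 - η) * ∏ μ ∈ (primitiveRoots p Qb).erase η, A.valuation (1 - μ)
        ≤ A.valuation (1 - η) * 1 :=
          mul_le_mul_right (Finset.prod_le_one' fun μ hμ =>
            hle μ (Finset.mem_of_mem_erase hμ)) _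
      _ = A.valuation (1 - η) := mul_one _
      _ < 1 := hlt
  rw [hp1] at h3
  exact lt_irrefl _ h3

/-- **reduction is injective on `μ_p`**: two distinct `p`-th roots of unity differ by a unit
of `A`, when `p` is a unit at `A` -/
theorem valuation_sub_eq_one (A : ValuationSubring Qb) (hp1 : A.valuation (p : Qb) = 1)
    {x y : Qb} (hx : x ^ p = 1) (hy : y ^ p = 1) (hxy : x ≠ y) : A.valuation (x - y) = 1 := by
  have hp : p.Prime := Fact.out
  have hx0 : x ≠ 0 := by
    rintro rfl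
    rw [zero_pow hp.ne_zero] at hx
    exact zero_ne_one hx
  have hη1 : (y * x⁻¹) ^ p = 1 := by rw [mul_pow, inv_pow, hx, hy, inv_one, mul_one]
  have hη2 : y * x⁻¹ ≠ 1 := by
    intro h
    apply hxy
    have := congrArg (· * x) h
    simp only [one_mul] at this
    rw [mul_assoc, inv_mul_cancel₀ hx0, mul_one] at this
    exact this.symm
  have hη : IsPrimitiveRoot (y * x⁻¹) p := by
    have h := IsPrimitiveRoot.orderOf (y * x⁻¹)
    rwa [orderOf_eq_prime hη1 hη2] at h
  have h1 := valuation_one_sub A hp1 hη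
  have h2 : x - y = x * (1 - y * x⁻¹) := by
    field_simp
  rw [h2, map_mul, h1, mul_one]
  exact valuation_of_pow_eq_one A hp.ne_zero hx

/-! ### Frobenius and inertia -/

/-- if `σ` is in the decomposition group of `A` and acts on the residue field as `x ↦ x ^ m`,
then `σ z ≡ z ^ m` modulo the maximal ideal for every `z ∈ A` -/
theorem valuation_sub_pow_lt_one (A : ValuationSubring Qb) (σ : GQ)
    (hσ : σ ∈ A.decompositionSubgroup ℚ) (m : ℕ)
    (hm : ∀ x : IsLocalRing.ResidueField A,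
      (⟨σ, hσ⟩ : A.decompositionSubgroup ℚ) • x = x ^ m)
    {z : Qb} (hz : z ∈ A) : A.valuation (σ z - z ^ m) < 1 := by
  set zA : A := ⟨z, hz⟩ with hzA
  have h1 : IsLocalRing.residue A ((⟨σ, hσ⟩ : A.decompositionSubgroup ℚ) • zA)
      = (IsLocalRing.residue A zA) ^ m := by
    rw [← hm]
    rfl
  have h2 : IsLocalRing.residue A ((⟨σ, hσ⟩ : A.decompositionSubgroup ℚ) • zA - zA ^ m) = 0 := by
    rw [map_sub, map_pow, h1, sub_self]
  have h3 : ((⟨σ, hσ⟩ : A.decompositionSubgroup ℚ) • zA - zA ^ m) ∈ IsLocalRing.maximalIdeal A :=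
    (IsLocalRing.residue_eq_zero_iff _).mp h2
  have h4 := (A.valuation_lt_one_iff _).mp h3
  exact h4

/-- common core of the Frobenius and inertia statements -/
theorem cycloChar_eq_of_residue (A : ValuationSubring Qb) (hp1 : A.valuation (p : Qb) = 1)
    (σ : GQ) (hσ : σ ∈ A.decompositionSubgroup ℚ) (m : ℕ)
    (hm : ∀ x : IsLocalRing.ResidueField A,
      (⟨σ, hσ⟩ : A.decompositionSubgroup ℚ) • x = x ^ m) :
    ((ExtCitation.cycloChar p σ : (ZMod p)ˣ) : ZMod p) = (m : ZMod p) := by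
  have hp : p.Prime := Fact.out
  obtain ⟨ζ, hζ⟩ := exists_zeta p
  have hzA : ζ ∈ A := by
    rw [← A.valuation_le_one_iff, valuation_of_pow_eq_one A hp.ne_zero hζ.pow_eq_one]
  have h1 := valuation_sub_pow_lt_one A σ hσ m hm hzA
  apply cycloChar_eq_of_pow hζ σ m
  by_contra hne
  have h2 : A.valuation (σ ζ - ζ ^ m) = 1 := by
    apply valuation_sub_eq_one A hp1 _ _ hne
    · rw [← map_pow, hζ.pow_eq_one, map_one]
    · rw [← pow_mul, mul_comm, pow_mul, hζ.pow_eq_one, one_pow]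
  rw [h2] at h1
  exact lt_irrefl _ h1

/-- **`χ(Frob_ℓ) = ℓ`** for every Frobenius at every place of `Q̄` over `ℓ ≠ p` -/
theorem cycloChar_frob {ℓ : ℕ} (hℓ : ℓ.Prime) (hℓp : ℓ ≠ p) (A : ValuationSubring Qb)
    (hA : A.LiesOverPrime ℓ) (σ : GQ) (hσ : A.IsFrobeniusAt σ ℓ) :
    ((ExtCitation.cycloChar p σ : (ZMod p)ˣ) : ZMod p) = (ℓ : ZMod p) :=
  cycloChar_eq_of_residue A (valuation_prime_eq_one A hA hℓ hℓp) σ
    hσ.mem_decompositionSubgroup ℓ hσ.smul_residue_eq

/-- **`χ` is unramified outside `p`** -/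
theorem cycloChar_inertia {ℓ : ℕ} (hℓ : ℓ.Prime) (hℓp : ℓ ≠ p) (A : ValuationSubring Qb)
    (hA : A.LiesOverPrime ℓ) (σ : GQ) (hσ : σ ∈ A.inertiaSubgroupIn ℚ) :
    ExtCitation.cycloChar p σ = 1 := by
  obtain ⟨τ, hτ, rfl⟩ := Subgroup.mem_map.mp hσ
  have hτ' : ∀ x : IsLocalRing.ResidueField A, τ • x = x ^ 1 := by
    intro x
    have h1 : MulSemiringAction.toRingAut (A.decompositionSubgroup ℚ)
        (IsLocalRing.ResidueField A) τ = 1 := hτ
    have h2 := RingEquiv.congr_fun h1 x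
    rw [pow_one]
    exact h2
  have h := cycloChar_eq_of_residue A (valuation_prime_eq_one A hA hℓ hℓp)
    ((A.decompositionSubgroup ℚ).subtype τ) τ.2 1 hτ'
  apply Units.ext
  rw [h, Nat.cast_one, Units.val_one]

/-- **`χ` factors through the finite level `ℚ(ζ_p)`** -/
theorem cycloChar_finiteLevel : GaloisFactorsThroughFiniteLevel (ExtCitation.cycloChar p) := by
  obtain ⟨ζ, hζ⟩ := exists_zeta p
  have hp : p.Prime := Fact.out
  refine ⟨IntermediateField.adjoin ℚ {ζ}, ?_, ?_⟩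
  · exact IntermediateField.adjoin.finiteDimensional (hζ.isIntegral hp.pos).tower_top
  · intro σ hσ
    have h1 : σ ζ = ζ ^ 1 := by
      rw [pow_one]
      exact hσ ζ (IntermediateField.mem_adjoin_simple_self ℚ ζ)
    have h := cycloChar_eq_of_pow hζ σ 1 h1
    apply Units.ext
    rw [h, Nat.cast_one, Units.val_one]

/-! ### the `k`-valued cyclotomic character -/

section kValued

variable (p) (k : Type) [Field k] [CharP k p]

/-- the mod `p` cyclotomic character with values in a field `k` of characteristic `p` -/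
noncomputable def chiK : GQ →* k :=
  ((ZMod.castHom (dvd_refl p) k : ZMod p →+* k) : ZMod p →* k).comp
    ((Units.coeHom (ZMod p)).comp (ExtCitation.cycloChar p))

theorem chiK_apply (σ : GQ) :
    chiK p k σ = ZMod.castHom (dvd_refl p) k ((ExtCitation.cycloChar p σ : (ZMod p)ˣ) : ZMod p) :=
  rfl

variable {p k}

theorem chiK_ne_zero (σ : GQ) : chiK p k σ ≠ 0 := by
  rw [chiK_apply]
  exact (IsUnit.map (ZMod.castHom (dvd_refl p) k) (Units.isUnit _)).ne_zero

/-- `(ℓ : k) ≠ 0` means `ℓ ≠ p` -/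
theorem ne_of_natCast_ne_zero {ℓ : ℕ} (h : (ℓ : k) ≠ 0) : ℓ ≠ p := by
  rintro rfl
  exact h (CharP.cast_eq_zero k ℓ)

theorem chiK_frob {ℓ : ℕ} (hℓ : ℓ.Prime) (hℓk : (ℓ : k) ≠ 0) (A : ValuationSubring Qb)
    (hA : A.LiesOverPrime ℓ) (σ : GQ) (hσ : A.IsFrobeniusAt σ ℓ) :
    chiK p k σ = (ℓ : k) := by
  rw [chiK_apply, cycloChar_frob hℓ (ne_of_natCast_ne_zero hℓk) A hA σ hσ, map_natCast]

theorem chiK_inertia {ℓ : ℕ} (hℓ : ℓ.Prime) (hℓp : ℓ ≠ p) (A : ValuationSubring Qb)
    (hA : A.LiesOverPrime ℓ) (σ : GQ) (hσ : σ ∈ A.inertiaSubgroupIn ℚ) :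
    chiK p k σ = 1 := by
  rw [chiK_apply, cycloChar_inertia hℓ hℓp A hA σ hσ, Units.val_one, map_one]

theorem chiK_finiteLevel : GaloisFactorsThroughFiniteLevel (chiK p k) := by
  obtain ⟨L, hL, h⟩ := cycloChar_finiteLevel (p := p)
  refine ⟨L, hL, fun σ hσ => ?_⟩
  rw [chiK_apply, h σ hσ, Units.val_one, map_one]

end kValued

end Fermat.Agent.S29.Cyclo.ModPChar
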